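import Fermat.Agent.LevelRaising.Commute
import Mathlib.RingTheory.Valuation.LocalSubring

/-!
# Homomorphisms valued in a valuation ring and their reductions
-/

set_option autoImplicit false

noncomputable section

namespace Fermat.Agent.LevelRaising

open CongruenceSubgroup Function Fermat.Agent.Periods
open ModularCurve.Period
open scoped MatrixGroups BigOperators

variable (B : ValuationSubring ℂ) {G : Type*} [Group G]

/-- extension of scalars to `ℂ` -/
def inclH : (Additive G →+ B) →+ (Additive G →+ ℂ) :=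
  AddMonoidHom.compHom B.subtype.toAddMonoidHom

/-- reduction of the values -/
def redH : (Additive G →+ B) →+ (Additive G →+ IsLocalRing.ResidueField B) :=
  AddMonoidHom.compHom (IsLocalRing.residue B).toAddMonoidHom

variable {B}

theorem inclH_apply (φ : Additive G →+ B) (x : Additive G) : inclH B φ x = ((φ x : B) : ℂ) := rfl

theorem redH_apply (φ : Additive G →+ B) (x : Additive G) :
    redH B φ x = IsLocalRing.residue B (φ x) := rfl

theorem inclH_injective : Injective (inclH B (G := G)) := fun _ _ h =>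
  AddMonoidHom.ext fun x => Subtype.ext (DFunLike.congr_fun h x)

theorem inclH_smul (c : B) (φ : Additive G →+ B) : inclH B (c • φ) = (c : ℂ) • inclH B φ :=
  AddMonoidHom.ext fun _ => rfl

theorem redH_smul (c : B) (φ : Additive G →+ B) :
    redH B (c • φ) = IsLocalRing.residue B c • redH B φ :=
  AddMonoidHom.ext fun x => map_mul (IsLocalRing.residue B) c (φ x)

variable [Group.FG G]

/-- A nonzero homomorphism is a multiple of an integral one with a value equal to one. -/
theorem exists_normalized (v : Additive G →+ ℂ) (hv : v ≠ 0) :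
    ∃ (g : G) (φ : Additive G →+ B), φ (Additive.ofMul g) = 1 ∧
      v (Additive.ofMul g) ≠ 0 ∧ v = v (Additive.ofMul g) • inclH B φ := by
  classical
  obtain ⟨S, hS, hSfin⟩ := Group.fg_iff.mp ‹Group.FG G›
  obtain ⟨s0, hs0, hv0⟩ : ∃ s ∈ hSfin.toFinset, v (Additive.ofMul s) ≠ 0 := by
    by_contra! hall
    refine hv (AddMonoidHom.ext fun x => ?_)
    rw [← ofMul_toMul x, AddMonoidHom.zero_apply]
    generalize Additive.toMul x = y'
    have hx : y' ∈ Subgroup.closure S := hS ▸ Subgroup.mem_top _
    induction hx using Subgroup.closure_induction with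
    | mem y hy => exact hall y (hSfin.mem_toFinset.mpr hy)
    | one => exact map_zero v
    | mul y z _ _ hy hz => rw [ofMul_mul, map_add, hy, hz, add_zero]
    | inv y _ hy => rw [ofMul_inv, map_neg, hy, neg_zero]
  obtain ⟨g, hg, hmax⟩ := Finset.exists_max_image hSfin.toFinset
    (fun s => B.valuation (v (Additive.ofMul s))) ⟨s0, hs0⟩
  set a := v (Additive.ofMul g) with ha
  have ha0 : a ≠ 0 := fun h0 => hv0 <| by
    have := hmax s0 hs0
    rw [h0, map_zero] at this
    exact (map_eq_zero _).mp (le_antisymm this zero_le)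
  have hmem : ∀ x : G, a⁻¹ * v (Additive.ofMul x) ∈ B := by
    intro x
    have hx : x ∈ Subgroup.closure S := hS ▸ Subgroup.mem_top _
    induction hx using Subgroup.closure_induction with
    | mem y hy =>
      rw [← ValuationSubring.valuation_le_one_iff, map_mul, map_inv₀]
      exact inv_mul_le_one_of_le₀ (hmax y (hSfin.mem_toFinset.mpr hy)) zero_le
    | one => simp
    | mul y z _ _ hy hz => rw [ofMul_mul, map_add, mul_add]; exact add_mem hy hz
    | inv y _ hy => rw [ofMul_inv, map_neg, mul_neg]; exact neg_mem hy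
  refine ⟨g, AddMonoidHom.mk' (fun x => ⟨a⁻¹ * v x, hmem (Additive.toMul x)⟩)
    (fun x y => Subtype.ext (by simp [mul_add])), Subtype.ext ?_, ha0, ?_⟩
  · show a⁻¹ * a = 1
    exact inv_mul_cancel₀ ha0
  · refine AddMonoidHom.ext fun x => ?_
    rw [AddMonoidHom.smul_apply, inclH_apply, smul_eq_mul]
    exact (mul_inv_cancel_left₀ ha0 (v x)).symm

/-- A homomorphism reducing to zero is divisible by the maximal ideal. -/
theorem mem_smul_top_of_redH (φ : Additive G →+ B) (h : redH B φ = 0) :
    φ ∈ IsLocalRing.maximalIdeal B • (⊤ : Submodule B (Additive G →+ B)) := by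
  by_cases h0 : φ = 0
  · rw [h0]; exact zero_mem _
  obtain ⟨g, φ', -, -, e⟩ := exists_normalized (B := B) (inclH B φ) fun hz =>
    h0 (inclH_injective (hz.trans (map_zero _).symm))
  have e' : φ = φ (Additive.ofMul g) • φ' := inclH_injective <| by
    rw [inclH_smul]; exact e
  rw [e']
  refine Submodule.smul_mem_smul ?_ Submodule.mem_top
  exact (IsLocalRing.residue_eq_zero_iff _).mp (DFunLike.congr_fun h _)

omit [Group.FG G] in
theorem isUnit_two {p : ℕ} (hp : p.Prime) (hp2 : p ≠ 2)
    (hpB : (p : B) ∈ IsLocalRing.maximalIdeal B) : IsUnit (2 : B) := by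
  by_contra h2
  have h2' : (2 : B) ∈ IsLocalRing.maximalIdeal B := h2
  obtain ⟨k, hk⟩ := hp.odd_of_ne_two hp2
  have : (1 : B) ∈ IsLocalRing.maximalIdeal B := by
    have := sub_mem hpB (Ideal.mul_mem_right (k : B) _ h2')
    rwa [hk, Nat.cast_add, Nat.cast_mul, Nat.cast_one, Nat.cast_ofNat, add_sub_cancel_left] at this
  exact (IsLocalRing.maximalIdeal.isMaximal B).ne_top (Ideal.eq_top_of_isUnit_mem _ this isUnit_one)

omit [Group.FG G] in
theorem nsmul_eq_zero_imp (n : ℕ) (a : B) (hn : n ≠ 0) (h : n • a = 0) : a = 0 := by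
  have := congrArg (fun x : B => (x : ℂ)) h
  rw [nsmul_eq_mul] at h
  simpa [hn] using h

omit [Group.FG G] in
theorem three_torsionFree (r : B) (h : 3 * r = 0) : r = 0 :=
  nsmul_eq_zero_imp 3 r (by norm_num) (by rw [nsmul_eq_mul]; exact_mod_cast h)

theorem charP_residueField {p : ℕ} (hp : p.Prime)
    (hpB : (p : B) ∈ IsLocalRing.maximalIdeal B) : CharP (IsLocalRing.ResidueField B) p := by
  refine (CharP.charP_iff_prime_eq_zero hp).mpr ?_
  rw [← map_natCast (IsLocalRing.residue B), IsLocalRing.residue_eq_zero_iff]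
  exact hpB

instance fg_Gamma0 (L : ℕ) [NeZero L] : Group.FG (Gamma0 L) :=
  (Group.fg_iff_subgroup_fg _).2 (Fermat.Agent.Gamma0.Gamma0_fg L)

end Fermat.Agent.LevelRaising
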