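import Fermat.Agent.LevelRaising.Lattice.Basic
import Mathlib.LinearAlgebra.Eigenspace.Triangularizable

/-!
# Lifting systems of eigenvalues from a reduction
-/

set_option autoImplicit false

noncomputable section

namespace Fermat.Agent.LevelRaising

open CongruenceSubgroup Function Fermat.Agent.Periods
open ModularCurve.Period
open scoped MatrixGroups BigOperators

theorem homT_inclH {M r : ℕ} [NeZero M] (B : ValuationSubring ℂ) (hr : r.Prime) (hrM : ¬ r ∣ M)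
    (φ : Additive (Gamma0 M) →+ B) :
    homT hr hrM ℂ (inclH B φ) = inclH B (homT hr hrM B φ) :=
  homT_comp hr hrM B ℂ _ φ

theorem homT_redH {M r : ℕ} [NeZero M] (B : ValuationSubring ℂ) (hr : r.Prime) (hrM : ¬ r ∣ M)
    (φ : Additive (Gamma0 M) →+ B) :
    homT hr hrM (IsLocalRing.ResidueField B) (redH B φ) = redH B (homT hr hrM B φ) :=
  homT_comp hr hrM B (IsLocalRing.ResidueField B) _ φ

theorem finiteDimensional_hom (M : ℕ) [NeZero M] :
    FiniteDimensional ℂ (Additive (Gamma0 M) →+ ℂ) := by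
  have : Fintype (Matrix.SpecialLinearGroup (Fin 2) ℤ ⧸ Gamma0 M) :=
    Subgroup.fintypeQuotientOfFiniteIndex
  exact finite_hom ℂ (Fermat.Agent.Gamma0.neg_one_mem_Gamma0 M) (by norm_num) (by simp)

/-- A system of eigenvalues of the reduction of an integral vector in a stable space lifts. -/
theorem exists_congruent_eigenvector {M : ℕ} [NeZero M] (B : ValuationSubring ℂ)
    (W : Submodule ℂ (Additive (Gamma0 M) →+ ℂ))
    (hstab : ∀ r (hr : r.Prime) (hrM : ¬ r ∣ M), ∀ v ∈ W, homT hr hrM ℂ v ∈ W)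
    (hcomm : ∀ r (hr : r.Prime) (hrM : ¬ r ∣ M) r' (hr' : r'.Prime) (hrM' : ¬ r' ∣ M), ∀ v ∈ W,
      homT hr hrM ℂ (homT hr' hrM' ℂ v) = homT hr' hrM' ℂ (homT hr hrM ℂ v))
    (k0 : Additive (Gamma0 M) →+ B) (hk0W : inclH B k0 ∈ W) (hk0 : redH B k0 ≠ 0)
    (θ : ℕ → IsLocalRing.ResidueField B)
    (heig : ∀ r (hr : r.Prime) (hrM : ¬ r ∣ M),
      homT hr hrM (IsLocalRing.ResidueField B) (redH B k0) = θ r • redH B k0) :
    ∃ v ∈ W, v ≠ 0 ∧ ∀ r (hr : r.Prime) (hrM : ¬ r ∣ M),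
      ∃ lam : B, homT hr hrM ℂ v = (lam : ℂ) • v ∧ IsLocalRing.residue B lam = θ r := by
  classical
  have := finiteDimensional_hom M
  let I := {r : ℕ // r.Prime ∧ ¬ r ∣ M}
  let T : I → Module.End ℂ (Additive (Gamma0 M) →+ ℂ) := fun i => homT i.2.1 i.2.2 ℂ
  have hTc : ∀ i j : I, ∀ v ∈ W, T i (T j v) = T j (T i v) := fun i j v hv =>
    hcomm _ i.2.1 i.2.2 _ j.2.1 j.2.2 v hv
  obtain ⟨U, ⟨hUW, hUinv, φ, hφU, d, hd, hφ⟩, hmin⟩ :=
    WellFounded.has_min (wellFounded_lt (α := Submodule ℂ (Additive (Gamma0 M) →+ ℂ)))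
      {U | U ≤ W ∧ (∀ i, ∀ u ∈ U, T i u ∈ U) ∧ ∃ φ : Additive (Gamma0 M) →+ B,
        inclH B φ ∈ U ∧ ∃ d : IsLocalRing.ResidueField B, d ≠ 0 ∧ redH B φ = d • redH B k0}
      ⟨W, le_rfl, fun i v hv => hstab _ i.2.1 i.2.2 v hv, k0, hk0W, 1, one_ne_zero,
        (one_smul _ _).symm⟩
  -- every eigenvalue on `U` is integral with the given reduction
  have key : ∀ (i : I) (c : ℂ), ∀ u ∈ U, u ≠ 0 → T i u = c • u →
      ∃ lam : B, (lam : ℂ) = c ∧ IsLocalRing.residue B lam = θ i.1 := by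
    intro i c u hu hu0 hc
    obtain ⟨g, ψ, hψ1, -, hψ⟩ := exists_normalized (B := B) u hu0
    set s := u (Additive.ofMul g)
    have hTψ : T i (inclH B ψ) = c • inclH B ψ := by
      have hs : s ≠ 0 := fun h0 => hu0 (by rw [hψ, h0, zero_smul])
      rw [hψ, map_smul, smul_comm] at hc
      exact smul_right_injective _ hs hc
    set lam : B := homT i.2.1 i.2.2 B ψ (Additive.ofMul g) with hlam
    have hlc : (lam : ℂ) = c := by
      have := DFunLike.congr_fun hTψ (Additive.ofMul g)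
      rw [show T i (inclH B ψ) = inclH B (homT i.2.1 i.2.2 B ψ) from homT_inclH B _ _ ψ,
        inclH_apply, AddMonoidHom.smul_apply, inclH_apply, hψ1] at this
      simpa using this
    refine ⟨lam, hlc, ?_⟩
    by_contra hne
    set F : Module.End ℂ (Additive (Gamma0 M) →+ ℂ) := T i - c • 1 with hF
    have hFU : ∀ v ∈ U, F v ∈ U := fun v hv => by
      simpa [hF] using sub_mem (hUinv i v hv) (U.smul_mem c hv)
    let U' : Submodule ℂ (Additive (Gamma0 M) →+ ℂ) := U.map F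
    have hU'le : U' ≤ U := by
      rintro _ ⟨v, hv, rfl⟩
      exact hFU v hv
    have hU'inv : ∀ j, ∀ w ∈ U', T j w ∈ U' := by
      rintro j _ ⟨v, hv, rfl⟩
      refine ⟨T j v, hUinv j v hv, ?_⟩
      simp [hF, hTc j i v (hUW hv)]
    have hU'φ : ∃ φ' : Additive (Gamma0 M) →+ B,
        inclH B φ' ∈ U' ∧ ∃ d' : IsLocalRing.ResidueField B, d' ≠ 0 ∧
          redH B φ' = d' • redH B k0 := by
      refine ⟨homT i.2.1 i.2.2 B φ - lam • φ, ⟨inclH B φ, hφU, ?_⟩,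
        d * (θ i.1 - IsLocalRing.residue B lam), mul_ne_zero hd (sub_ne_zero.mpr (Ne.symm hne)), ?_⟩
      · rw [map_sub, inclH_smul, hlc, ← homT_inclH]
        simp [hF, T]
      · rw [map_sub, redH_smul, ← homT_redH, hφ, map_smul, heig _ i.2.1 i.2.2, smul_smul, smul_smul,
          ← sub_smul]
        congr 1
        ring
    have hEq : U' = U := eq_of_le_of_not_lt hU'le
      (hmin U' ⟨hU'le.trans hUW, hU'inv, hU'φ⟩)
    have hsurj : Surjective (F.restrict hFU) := fun v => by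
      obtain ⟨w, hw, hwv⟩ := (hEq.symm ▸ v.2 : (v : Additive (Gamma0 M) →+ ℂ) ∈ U')
      exact ⟨⟨w, hw⟩, Subtype.ext hwv⟩
    have hinj := LinearMap.injective_iff_surjective.mpr hsurj
    have h0 : F.restrict hFU ⟨u, hu⟩ = F.restrict hFU 0 := Subtype.ext <| by
      simp [hF, hc]
    exact hu0 (congrArg Subtype.val (hinj h0))
  -- a common eigenvector
  have hU0 : U ≠ ⊥ := fun h0 => by
    rw [h0, Submodule.mem_bot, ← map_zero (inclH B)] at hφU
    rw [inclH_injective hφU, map_zero] at hφ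
    exact (smul_ne_zero hd hk0) hφ.symm
  obtain ⟨U₁, ⟨h10, h1U, h1inv⟩, h1min⟩ :=
    WellFounded.has_min (wellFounded_lt (α := Submodule ℂ (Additive (Gamma0 M) →+ ℂ)))
      {U₁ | U₁ ≠ ⊥ ∧ U₁ ≤ U ∧ ∀ i, ∀ u ∈ U₁, T i u ∈ U₁} ⟨U, hU0, le_rfl, hUinv⟩
  obtain ⟨v, hvU, hv⟩ := Submodule.exists_mem_ne_zero_of_ne_bot h10
  refine ⟨v, hUW (h1U hvU), hv, fun r hr hrM => ?_⟩
  let i : I := ⟨r, hr, hrM⟩
  have : Nontrivial U₁ := Submodule.nontrivial_iff_ne_bot.2 h10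
  obtain ⟨c, hc⟩ := Module.End.exists_eigenvalue ((T i).restrict (h1inv i))
  obtain ⟨u₀, hu₀⟩ := hc.exists_hasEigenvector
  have hu₀' : T i u₀ = c • (u₀ : Additive (Gamma0 M) →+ ℂ) := congrArg Subtype.val hu₀.apply_eq_smul
  let U₂ : Submodule ℂ (Additive (Gamma0 M) →+ ℂ) :=
    U₁ ⊓ LinearMap.ker (T i - c • (1 : Module.End ℂ (Additive (Gamma0 M) →+ ℂ)))
  have hmem : (u₀ : Additive (Gamma0 M) →+ ℂ) ∈ U₂ :=
    Submodule.mem_inf.2 ⟨u₀.2, by simp [hu₀']⟩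
  have h2inv : ∀ j, ∀ w ∈ U₂, T j w ∈ U₂ := fun j w hw => by
    obtain ⟨hw1, hw2⟩ := Submodule.mem_inf.1 hw
    have hw3 : T i w = c • w := by simpa [sub_eq_zero] using hw2
    refine Submodule.mem_inf.2 ⟨h1inv j w hw1, ?_⟩
    simp [hTc i j w (hUW (h1U hw1)), hw3]
  have hne : U₂ ≠ ⊥ := fun h0 => hu₀.2 <| by
    rw [h0, Submodule.mem_bot] at hmem
    exact Subtype.ext hmem
  have hE : U₂ = U₁ :=
    eq_of_le_of_not_lt inf_le_left (h1min U₂ ⟨hne, inf_le_left.trans h1U, h2inv⟩)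
  have hTv : T i v = c • v := by
    simpa [sub_eq_zero] using (Submodule.mem_inf.1 (hE.symm ▸ hvU : v ∈ U₂)).2
  obtain ⟨lam, hl, hlθ⟩ := key i c v (h1U hvU) hv hTv
  exact ⟨lam, by rw [hl]; exact hTv, hlθ⟩

end Fermat.Agent.LevelRaising
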